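import Mathlib

/-!
# S33 / Calc / NormAux : abstract form of the (C2) core

`G` a finite group of prime order `p` acting on a commutative ring `L` by ring endomorphisms `τ z`;
`I` an additive subgroup containing all traces `∑_z τ z x`.  Then the middle coefficients of
`∏_z (τ z a + X τ z b)` lie in `I` (they are invariant, so `p E_i ∈ I`; the derivative of the product is
a trace, so `i E_i ∈ I`).
-/

set_option autoImplicit false

open Polynomial

namespace Fermat.Agent.S33.Calc.C2

variable {L G : Type*} [CommRing L] [Group G] [Fintype G]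

/-- the polynomial `∏_z (a_z + X b_z)`. -/
noncomputable def PP (τ : G → L →+* L) (a b : L) : L[X] := ∏ z : G, (C (τ z a) + X * C (τ z b))

theorem PP_map (τ : G → L →+* L) (hmul : ∀ z w x, τ z (τ w x) = τ (z * w) x) (a b : L) (w : G) :
    (PP τ a b).map (τ w) = PP τ a b := by
  unfold PP
  rw [Polynomial.map_prod]
  simp only [Polynomial.map_add, Polynomial.map_mul, Polynomial.map_C, Polynomial.map_X, hmul]
  exact Fintype.prod_equiv (Equiv.mulLeft w) _ _ (fun z => rfl)

theorem PP_coeff_inv (τ : G → L →+* L) (hmul : ∀ z w x, τ z (τ w x) = τ (z * w) x) (a b : L) (w : G)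
    (i : ℕ) : τ w ((PP τ a b).coeff i) = (PP τ a b).coeff i := by
  conv_rhs => rw [← PP_map τ hmul a b w]
  rw [Polynomial.coeff_map]

theorem PP_derivative [DecidableEq G] (τ : G → L →+* L) (hmul : ∀ z w x, τ z (τ w x) = τ (z * w) x)
    (a b : L) :
    derivative (PP τ a b)
      = ∑ z : G, ((∏ w ∈ Finset.univ.erase (1 : G), (C (τ w a) + X * C (τ w b)))
          * C (τ 1 b)).map (τ z) := by
  unfold PP
  rw [Polynomial.derivative_prod_finset]
  refine Finset.sum_congr rfl fun z _ => ?_
  rw [Polynomial.map_mul, Polynomial.map_prod]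
  simp only [Polynomial.map_add, Polynomial.map_mul, Polynomial.map_C, Polynomial.map_X, hmul,
    mul_one, derivative_add, derivative_C, zero_add, derivative_mul, derivative_X, one_mul,
    mul_zero, add_zero]
  congr 1
  refine (Finset.prod_equiv (Equiv.mulLeft z) ?_ (fun w _ => rfl)).symm
  intro w
  simp

theorem PP_coeff_mem (τ : G → L →+* L) (hmul : ∀ z w x, τ z (τ w x) = τ (z * w) x)
    (I : AddSubgroup L) (hI : ∀ x, ∑ z : G, τ z x ∈ I) {p : ℕ} (hp : p.Prime)
    (hcard : Fintype.card G = p) (a b : L) {i : ℕ} (hi0 : 0 < i) (hip : i < p) :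
    (PP τ a b).coeff i ∈ I := by
  classical
  set E := (PP τ a b).coeff i with hE
  have h1 : (p : ℤ) • E ∈ I := by
    have := hI E
    simp only [hE, PP_coeff_inv τ hmul] at this
    rw [Finset.sum_const, Finset.card_univ, hcard] at this
    simpa using this
  have h2 : (i : ℤ) • E ∈ I := by
    obtain ⟨j, rfl⟩ : ∃ j, i = j + 1 := ⟨i - 1, by omega⟩
    have h3 := congrArg (fun Q => Q.coeff j) (PP_derivative τ hmul a b)
    simp only [Polynomial.coeff_derivative, Polynomial.finsetSum_coeff, Polynomial.coeff_map] at h3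
    have h4 := hI (((∏ w ∈ Finset.univ.erase (1 : G), (C (τ w a) + X * C (τ w b)))
          * C (τ 1 b)).coeff j)
    rw [← h3] at h4
    have h5 : ((j + 1 : ℕ) : ℤ) • E = (PP τ a b).coeff (j + 1) * ((j : L) + 1) := by
      rw [hE, zsmul_eq_mul, mul_comm]
      push_cast
      ring
    rw [h5]
    exact h4
  have hcop : IsCoprime (i : ℤ) (p : ℤ) := by
    rw [Nat.isCoprime_iff_coprime]
    exact (Nat.coprime_of_lt_prime hi0.ne' hip hp).symm
  obtain ⟨u, v, huv⟩ := hcop
  have h6 : E = u • ((i : ℤ) • E) + v • ((p : ℤ) • E) := by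
    rw [smul_smul, smul_smul, ← add_smul, huv, one_smul]
  rw [h6]
  exact I.add_mem (I.zsmul_mem h2 u) (I.zsmul_mem h1 v)

omit [Group G] in
theorem PP_coeff_zero (τ : G → L →+* L) (a b : L) : (PP τ a b).coeff 0 = ∏ z : G, τ z a := by
  unfold PP
  rw [Polynomial.coeff_zero_eq_eval_zero, Polynomial.eval_prod]
  simp

omit [Group G] in
theorem PP_natDegree_le (τ : G → L →+* L) (a b : L) : (PP τ a b).natDegree ≤ Fintype.card G := by
  unfold PP
  refine (Polynomial.natDegree_prod_le _ _).trans ?_
  refine (Finset.sum_le_card_nsmul _ _ 1 fun z _ => ?_).trans (by simp)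
  refine (Polynomial.natDegree_add_le _ _).trans ?_
  rw [Polynomial.natDegree_C]
  refine max_le (by omega) ?_
  exact (Polynomial.natDegree_mul_C_le _ _).trans Polynomial.natDegree_X_le

omit [Group G] in
theorem PP_coeff_card (τ : G → L →+* L) (a b : L) :
    (PP τ a b).coeff (Fintype.card G) = ∏ z : G, τ z b := by
  unfold PP
  have h := Polynomial.coeff_prod_of_natDegree_le (Finset.univ : Finset G)
    (fun z => C (τ z a) + X * C (τ z b)) 1 (fun z _ => by
      refine (Polynomial.natDegree_add_le _ _).trans ?_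
      rw [Polynomial.natDegree_C]
      refine max_le (by omega) ?_
      exact (Polynomial.natDegree_mul_C_le _ _).trans Polynomial.natDegree_X_le)
  rw [Finset.card_univ, mul_one] at h
  rw [h]
  refine Finset.prod_congr rfl fun z _ => ?_
  simp [Polynomial.coeff_C]

omit [Group G] in
theorem PP_eval (τ : G → L →+* L) (a b c : L) :
    (PP τ a b).eval c = ∏ z : G, (τ z a + c * τ z b) := by
  unfold PP
  rw [Polynomial.eval_prod]
  refine Finset.prod_congr rfl fun z _ => ?_
  simp only [eval_add, eval_C, eval_mul, eval_X]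

end Fermat.Agent.S33.Calc.C2
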