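import Fermat.Agent.S33.Calc.Theta
import Fermat.Agent.S33.Calc.NormAux

/-!
# S33 / Calc / Norm : (C2) the expansion of `normSer p (y₂ + c y₃)`

`R` a domain containing a primitive `p`-th root of unity, `p` prime.

PROOF SKETCHES.
* `sum_twist` : the `n`-th coefficient of the left side is `(∑_z z^n) x_n`; `∑_z z^n = p` if `p ∣ n`
  (every term is `1`) and `0` otherwise (multiply the sum by `ζ^n ≠ 1`: it is permuted;
  cf. the proof of `ES.twistProd_coeff_of_not_dvd`); `Calc.coeff_natCast_mul`, `qExpand_coeff_mul`,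
  `qExpand_coeff_of_not_dvd`, `contract_coeff`.
* `twistProd_add_mul` (**C2 core**).  Put `a_z = twist z y₂`, `b_z = twist z y₃`, `μ = rootsOfUnity p R`.
  `∏_z (a_z + c b_z) = ∑_{S ⊆ μ} c^{|S|} m_S`, `m_S = ∏_{z ∈ S} b_z ∏_{z ∉ S} a_z` (`Finset.prod_add`).
  `S = ∅`, `S = univ` give the two main terms (`card μ = p`: `IsPrimitiveRoot.card_rootsOfUnity`).
  For `0 < i < p` let `E_i = ∑_{|S| = i} m_S`.  DOUBLE COUNTING (no orbits needed):
  `i • E_i = ∑_S ∑_{z ∈ S} m_S = ∑_z ∑_{S ∋ z} m_S = ∑_z twist z (G_i)`, `G_i = ∑_{S ∋ 1, |S| = i} m_S`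
  (`twist w m_S = m_{w S}`), `= p * Vq (contract G_i)` by `sum_twist`.  Also `E_i = Vq (contract E_i)`
  (it is invariant under all twists, or: use `p * E_i = ∑_z twist z E_i = p * Vq (contract E_i)`).
  As `gcd(i,p) = 1`, `u i + v p = 1`: `E_i = u (i E_i) + v p E_i = p * Vq (u contract G_i + v contract E_i)`.
  ALTERNATIVE: differentiate the polynomial `∏_z (C a_z + X * C b_z) ∈ R((q))[X]`
  (`Polynomial.derivative_prod`): `P' = ∑_z twist_z (H)`, so `(i+1) E_{i+1} ∈ p * Vq (..)`.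
* `normSer_add_mul` : apply `contract` / use `Vq_injective`, `Vq_normSer`, `Vq (C c) = C c`.
-/

set_option autoImplicit false

open AlgebraicCurve ModularCurve

namespace Fermat.Agent.S33.Calc

open Fermat.Agent.ES

noncomputable section

variable {R : Type*} [CommRing R] [IsDomain R] (p : ℕ) [NeZero p]

theorem sum_twist {ζ : R} (hζ : IsPrimitiveRoot ζ p) (x : LaurentSeries R) :
    ∑ z : rootsOfUnity p R, twist (z : Rˣ) x
      = (p : LaurentSeries R) * Vq R p (contract p x) := by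
  have hcard : Fintype.card (rootsOfUnity p R) = p := by
    rw [← Nat.card_eq_fintype_card]; exact hζ.card_rootsOfUnity
  ext n
  rw [HahnSeries.coeff_sum, coeff_natCast_mul]
  simp only [twist_coeff]
  by_cases hn : (p : ℤ) ∣ n
  · obtain ⟨k, rfl⟩ := hn
    rw [qExpand_coeff_mul, contract_coeff]
    have h1 : ∀ z : rootsOfUnity p R, (((z : Rˣ) ^ ((p : ℤ) * k) : Rˣ) : R) = 1 := by
      intro z
      have hz : (z : Rˣ) ^ p = 1 := (mem_rootsOfUnity _ _).1 z.2
      rw [zpow_mul, zpow_natCast, hz, one_zpow, Units.val_one]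
    simp only [h1, one_mul, Finset.sum_const, Finset.card_univ, hcard, nsmul_eq_mul]
  · rw [qExpand_coeff_of_not_dvd p _ hn, mul_zero, ← Finset.sum_mul]
    have hu : IsUnit ζ := hζ.isUnit (NeZero.ne p)
    obtain ⟨u, rfl⟩ := hu
    have hu' : IsPrimitiveRoot u p := IsPrimitiveRoot.coe_units_iff.mp hζ
    have hmem : u ∈ rootsOfUnity p R := by
      rw [mem_rootsOfUnity]; exact hu'.pow_eq_one
    set S : R := ∑ z : rootsOfUnity p R, (((z : Rˣ) ^ n : Rˣ) : R) with hS
    have h2 : ((u ^ n : Rˣ) : R) * S = S := by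
      rw [hS, Finset.mul_sum]
      refine Fintype.sum_equiv (Equiv.mulLeft (⟨u, hmem⟩ : rootsOfUnity p R)) _ _ (fun z => ?_)
      simp [mul_zpow]
    have h3 : (((u ^ n : Rˣ) : R) - 1) * S = 0 := by rw [sub_mul, h2, one_mul, sub_self]
    rcases mul_eq_zero.mp h3 with h4 | h4
    · exfalso
      apply hn
      have h5 : u ^ n = 1 := by
        apply Units.ext
        rw [Units.val_one]
        exact sub_eq_zero.mp h4
      exact (hu'.zpow_eq_one_iff_dvd n).mp h5
    · rw [h4, zero_mul]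

omit [IsDomain R] in
theorem twist_C (z : Rˣ) (c : R) : twist z (HahnSeries.C c) = HahnSeries.C c := by
  ext n
  rw [twist_coeff, HahnSeries.C_apply]
  by_cases hn : n = 0
  · subst hn; simp
  · rw [HahnSeries.coeff_single_of_ne hn, mul_zero]

/-- **(C2) core.** -/
theorem twistProd_add_mul (hp : p.Prime) {ζ : R} (hζ : IsPrimitiveRoot ζ p) (c : R)
    (y₂ y₃ : LaurentSeries R) :
    ∃ B : LaurentSeries R, twistProd p (y₂ + HahnSeries.C c * y₃)
      = twistProd p y₂ + HahnSeries.C (c ^ p) * twistProd p y₃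
        + (p : LaurentSeries R) * HahnSeries.C c * Vq R p B := by
  classical
  have hcard : Fintype.card (rootsOfUnity p R) = p := by
    rw [← Nat.card_eq_fintype_card]; exact hζ.card_rootsOfUnity
  set τ : rootsOfUnity p R → LaurentSeries R →+* LaurentSeries R := fun z => twist (z : Rˣ) with hτ
  have hmul : ∀ z w x, τ z (τ w x) = τ (z * w) x := fun z w x => twist_twist _ _ _
  let I : AddSubgroup (LaurentSeries R) :=
    ((AddMonoidHom.mulLeft (p : LaurentSeries R)).comp (Vq R p).toAddMonoidHom).range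
  let J : AddSubgroup (LaurentSeries R) :=
    ((AddMonoidHom.mulLeft ((p : LaurentSeries R) * HahnSeries.C c)).comp
      (Vq R p).toAddMonoidHom).range
  have hI : ∀ x, ∑ z, τ z x ∈ I := fun x => ⟨contract p x, (sum_twist p hζ x).symm⟩
  have hev : twistProd p (y₂ + HahnSeries.C c * y₃) = (C2.PP τ y₂ y₃).eval (HahnSeries.C c) := by
    rw [C2.PP_eval, twistProd]
    refine Finset.prod_congr rfl fun z _ => ?_
    rw [map_add, map_mul, twist_C]
  have hdeg : (C2.PP τ y₂ y₃).natDegree < p + 1 := by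
    have := C2.PP_natDegree_le τ y₂ y₃
    rw [hcard] at this
    omega
  obtain ⟨p', hp'⟩ : ∃ p', p = p' + 1 := ⟨p - 1, by have := hp.pos; omega⟩
  have hmid : ∑ i ∈ Finset.range p', (C2.PP τ y₂ y₃).coeff (i + 1) * HahnSeries.C c ^ (i + 1) ∈ J := by
    refine J.sum_mem fun i hi => ?_
    have hi' : i + 1 < p := by have := Finset.mem_range.1 hi; omega
    obtain ⟨B, hB⟩ := C2.PP_coeff_mem τ hmul I hI hp hcard y₂ y₃ (Nat.succ_pos i) hi'
    have hB' : (p : LaurentSeries R) * Vq R p B = (C2.PP τ y₂ y₃).coeff (i + 1) := hB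
    refine ⟨B * HahnSeries.C c ^ i, ?_⟩
    change (p : LaurentSeries R) * HahnSeries.C c * Vq R p (B * HahnSeries.C c ^ i) = _
    rw [← hB', map_mul, map_pow, qExpand_C]
    ring
  obtain ⟨B, hB⟩ := hmid
  refine ⟨B, ?_⟩
  have hB' : (p : LaurentSeries R) * HahnSeries.C c * Vq R p B
      = ∑ i ∈ Finset.range p', (C2.PP τ y₂ y₃).coeff (i + 1) * HahnSeries.C c ^ (i + 1) := hB
  rw [hB', hev, Polynomial.eval_eq_sum_range' hdeg, Finset.sum_range_succ]
  have h0 : ∑ i ∈ Finset.range p, (C2.PP τ y₂ y₃).coeff i * HahnSeries.C c ^ i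
      = ∑ i ∈ Finset.range p', (C2.PP τ y₂ y₃).coeff (i + 1) * HahnSeries.C c ^ (i + 1)
        + twistProd p y₂ := by
    have hgen : ∀ f : ℕ → LaurentSeries R,
        ∑ i ∈ Finset.range p, f i = ∑ i ∈ Finset.range p', f (i + 1) + f 0 := by
      intro f
      rw [hp', Finset.sum_range_succ']
    rw [hgen, C2.PP_coeff_zero, pow_zero, mul_one]
    rfl
  have h1 : (C2.PP τ y₂ y₃).coeff p = twistProd p y₃ := by
    have := C2.PP_coeff_card τ y₂ y₃
    rw [hcard] at this
    exact this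
  rw [h0, h1, map_pow]
  ring

theorem normSer_add_mul (hp : p.Prime) {ζ : R} (hζ : IsPrimitiveRoot ζ p) (c : R)
    (y₂ y₃ : LaurentSeries R) :
    ∃ B : LaurentSeries R, normSer p (y₂ + HahnSeries.C c * y₃)
      = normSer p y₂ + HahnSeries.C (c ^ p) * normSer p y₃
        + (p : LaurentSeries R) * HahnSeries.C c * B := by
  obtain ⟨B, hB⟩ := twistProd_add_mul p hp hζ c y₂ y₃
  refine ⟨B, Vq_injective (R := R) p ?_⟩
  rw [Vq_normSer p hζ, hB, map_add, map_add, map_mul, map_mul, map_mul, Vq_normSer p hζ,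
    Vq_normSer p hζ, qExpand_C, qExpand_C, map_natCast]

end

end Fermat.Agent.S33.Calc
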