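import Fermat.Agent.S33.Calc.Theta

/-!
# S33 / Calc / NormRed : `normSer p` and ring homomorphisms (reduction mod `π`, base change)

PROOF SKETCHES.
* `coeffMap_twistProd_of_char` : every `z ∈ μ_p(R)` reduces to `1` in `k` (`(z̄ - 1)^p = z̄^p - 1 = 0`,
  `sub_pow_char`), so `coeffMap res (twist z y) = coeffMap res y` (`coeffMap_twist`, `twist_one`);
  `Finset.prod_const`, `IsPrimitiveRoot.card_rootsOfUnity`.   (Compare `ES.coeffMap_res_twistProd`.)
* `coeffMap_normSer_of_char` : `coeffMap_contract`, `pow_char_eq`, `contract_Vq`.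
* `bijective_restrictRootsOfUnity` : injective because `ι` is; surjective by counting
  (`card_rootsOfUnity ≤ p` in the domain `K`), or: the image of `ζ` is primitive, and every root of unity
  is a power of it (`IsPrimitiveRoot.eq_pow_of_pow_eq_one`).
-/

set_option autoImplicit false

open AlgebraicCurve ModularCurve

namespace Fermat.Agent.S33.Calc

open Fermat.Agent.ES

noncomputable section

variable {R : Type*} [CommRing R] [IsDomain R] (p : ℕ) [NeZero p]

theorem coeffMap_twistProd_of_char {k : Type*} [Field k] [CharP k p] (hp : p.Prime)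
    (res : R →+* k) {ζ : R} (hζ : IsPrimitiveRoot ζ p) (y : LaurentSeries R) :
    coeffMap res (twistProd p y) = coeffMap res y ^ p := by
  have : Fact p.Prime := ⟨hp⟩
  have hone : ∀ z : rootsOfUnity p R, Units.map (res : R →* k) (z : Rˣ) = 1 := by
    intro z
    ext
    have hz : ((z : Rˣ)) ^ p = 1 := (mem_rootsOfUnity _ _).mp z.2
    have h1 : (res ((z : Rˣ) : R)) ^ p = 1 := by
      rw [← map_pow, ← Units.val_pow_eq_pow_val, hz, Units.val_one, map_one]
    have h2 : (res ((z : Rˣ) : R) - 1) ^ p = 0 := by
      rw [sub_pow_char, h1, one_pow, sub_self]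
    exact sub_eq_zero.mp (pow_eq_zero_iff (NeZero.ne p) |>.mp h2)
  unfold twistProd
  rw [map_prod]
  simp only [coeffMap_twist]
  have h3 : ∀ z : rootsOfUnity p R,
      twist (Units.map (res : R →* k) (z : Rˣ)) (coeffMap res y) = coeffMap res y := fun z => by
    rw [hone z, twist_one]
  rw [Finset.prod_congr rfl (fun z _ => h3 z), Finset.prod_const, Finset.card_univ,
    ← Nat.card_eq_fintype_card, hζ.card_rootsOfUnity]

theorem coeffMap_normSer_of_char {k : Type*} [Field k] [CharP k p] [Fact p.Prime]
    (res : R →+* k) {ζ : R} (hζ : IsPrimitiveRoot ζ p) (y : LaurentSeries R) :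
    coeffMap res (normSer p y) = coeffMap (frobenius k p) (coeffMap res y) := by
  rw [normSer, coeffMap_contract, coeffMap_twistProd_of_char p (Fact.out) res hζ, pow_char_eq p,
    contract_Vq]

theorem bijective_restrictRootsOfUnity {K : Type*} [Field K] (ι : R →+* K)
    (hι : Function.Injective ι) {ζ : R} (hζ : IsPrimitiveRoot ζ p) :
    Function.Bijective (restrictRootsOfUnity ι p) := by
  constructor
  · intro a b hab
    have h1 : ι ((a : Rˣ) : R) = ι ((b : Rˣ) : R) := by
      have := congrArg (fun z : rootsOfUnity p K => ((z : Kˣ) : K)) hab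
      simpa using this
    exact Subtype.ext (Units.ext (hι h1))
  · intro w
    have hζ' : IsPrimitiveRoot (ι ζ) p := hζ.map_of_injective hι
    have hw : (((w : Kˣ) : K)) ^ p = 1 := by
      have := (mem_rootsOfUnity _ _).mp w.2
      rw [← Units.val_pow_eq_pow_val, this, Units.val_one]
    obtain ⟨i, -, hi⟩ := hζ'.eq_pow_of_pow_eq_one hw
    have hu : IsUnit ζ := hζ.isUnit (NeZero.ne p)
    obtain ⟨u, hu⟩ := hu
    have hup : u ^ p = 1 := by
      ext
      rw [Units.val_pow_eq_pow_val, hu, hζ.pow_eq_one, Units.val_one]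
    refine ⟨⟨u ^ i, ?_⟩, ?_⟩
    · rw [mem_rootsOfUnity, ← pow_mul, mul_comm, pow_mul, hup, one_pow]
    · ext
      simp only [restrictRootsOfUnity_coe_apply, Units.val_pow_eq_pow_val, map_pow, hu]
      exact hi

theorem coeffMap_normSer {K : Type*} [Field K] (ι : R →+* K)
    (hι : Function.Injective ι) {ζ : R} (hζ : IsPrimitiveRoot ζ p) (y : LaurentSeries R) :
    coeffMap ι (normSer p y) = normSer p (coeffMap ι y) := by
  rw [normSer, normSer, coeffMap_contract,
    coeffMap_twistProd ι p (bijective_restrictRootsOfUnity p ι hι hζ)]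

end

end Fermat.Agent.S33.Calc
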