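import Fermat.Agent.S33.Calc.Red

/-!
# S33 / Calc / Cyclo : `ζ_p - 1` in a DVR of residue characteristic `p`

`R` a DVR with uniformiser `ϖ`, residue characteristic `p`, `ζ ∈ R` a primitive `p`-th root of unity.

PROOF SKETCHES.
* `exists_zeta_sub_one` : `ζ ≠ 1` (`IsPrimitiveRoot.ne_one`, `p ≥ 2`), so `ζ - 1 = u ϖ^d`
  (`IsDiscreteValuationRing.eq_unit_mul_pow_irreducible`); `d > 0` because `ζ - 1` is not a unit:
  its residue `z = ζ̄ - 1` satisfies `z^p = ζ̄^p - 1 = 0` (`sub_pow_char`/`sub_pow_expChar`).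
* `exists_p_eq` : `p = ∏_{μ primitive} (1 - μ)` (`Polynomial.cyclotomic_eq_prod_X_sub_primitiveRoots`,
  `Polynomial.eval_one_cyclotomic_prime`), each `1 - μ` is associated to `ζ - 1`
  (`IsPrimitiveRoot.associated_sub_one_pow_sub_one_of_coprime`, `Mathlib/RingTheory/RootsOfUnity/CyclotomicUnits`;
  compare `IsCyclotomicExtension.Rat.associated_zeta_sub_one_pow_prime` in
  `Mathlib/NumberTheory/NumberField/Cyclotomic/Ideal.lean`, whose proof can be copied), and there are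
  `p - 1` of them (`IsPrimitiveRoot.card_primitiveRoots`, `Nat.totient_prime`).
* `exists_t` : `rs (σ₀ ϖ) = rs ϖ = 0`, so `ϖ ∣ σ₀ ϖ`.
* `residue_pow_eq` : `σ₀ (ζ - 1) = ζ^a - 1 = (ζ - 1) * ∑_{i<a} ζ^i` (`mul_geom_sum`/`geom_sum_mul`), and
  `σ₀ (u ϖ^d) = σ₀ u * ϖ^d * t^d`.  Cancel `ϖ^d`: `u * ∑ ζ^i = σ₀ u * t^d`.  Reduce: `rs ζ = 1`,
  `rs (σ₀ u) = rs u ≠ 0`: `(a : k) = (rs t)^d`.  Finally `(rs t)^(p d) = a^p = a` (`frobenius_natCast`,
  or `ZMod.pow_card` through `ZMod.castHom`).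
-/

set_option autoImplicit false

namespace Fermat.Agent.S33.Calc

noncomputable section

variable {R : Type*} [CommRing R] [IsDomain R] [IsDiscreteValuationRing R] {p : ℕ}
  [Fact p.Prime] [CharP (kR R) p] {ζ : R} {ϖ : R}

theorem residue_zeta (hζ : IsPrimitiveRoot ζ p) : rs R ζ = 1 := by
  have h1 : (rs R ζ - 1) ^ p = 0 := by
    rw [sub_pow_char, ← map_pow, hζ.pow_eq_one, map_one, one_pow, sub_self]
  exact sub_eq_zero.1 (pow_eq_zero_iff (Fact.out : p.Prime).ne_zero |>.1 h1)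

theorem exists_zeta_sub_one (hζ : IsPrimitiveRoot ζ p) (hϖ : Irreducible ϖ) :
    ∃ (d : ℕ) (u : Rˣ), 0 < d ∧ ζ - 1 = u * ϖ ^ d := by
  have hne : ζ - 1 ≠ 0 := sub_ne_zero.2 (hζ.ne_one (Fact.out : p.Prime).one_lt)
  obtain ⟨d, u, hu⟩ := IsDiscreteValuationRing.eq_unit_mul_pow_irreducible hne hϖ
  refine ⟨d, u, Nat.pos_of_ne_zero ?_, hu⟩
  rintro rfl
  rw [pow_zero, mul_one] at hu
  have h1 : rs R (u : R) = 0 := by rw [← hu, map_sub, residue_zeta hζ, map_one, sub_self]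
  exact (u.isUnit.map (rs R)).ne_zero h1

theorem exists_p_eq (hζ : IsPrimitiveRoot ζ p) {d : ℕ} {u : Rˣ} (h : ζ - 1 = u * ϖ ^ d) :
    ∃ v : Rˣ, (p : R) = v * ϖ ^ ((p - 1) * d) := by
  have hp : p.Prime := Fact.out
  have : NeZero p := ⟨hp.ne_zero⟩
  have hass : Associated ((ζ - 1) ^ (p - 1)) (p : R) := by
    rw [← Polynomial.eval_one_cyclotomic_prime (R := R) (p := p),
      Polynomial.cyclotomic_eq_prod_X_sub_primitiveRoots hζ, Polynomial.eval_prod]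
    simp only [Polynomial.eval_sub, Polynomial.eval_X, Polynomial.eval_C]
    rw [← Nat.totient_prime hp, ← hζ.card_primitiveRoots, ← Finset.prod_const]
    refine Associated.prod _ _ _ fun η hη => ?_
    obtain ⟨i, -, hi, rfl⟩ := hζ.isPrimitiveRoot_iff.1 (isPrimitiveRoot_of_mem_primitiveRoots hη)
    simpa using (hζ.associated_sub_one_pow_sub_one_of_coprime hi).neg_right
  obtain ⟨w, hw⟩ := hass
  refine ⟨u ^ (p - 1) * w, ?_⟩
  rw [← hw, h, mul_pow, ← pow_mul, Units.val_mul, Units.val_pow_eq_pow_val, mul_comm d]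
  ring

omit [Fact p.Prime] [CharP (kR R) p] in
theorem exists_t (hϖ : Irreducible ϖ) (σ₀ : R →+* R) (h2 : (rs R).comp σ₀ = rs R) :
    ∃ t : R, σ₀ ϖ = ϖ * t := by
  have h1 : rs R (σ₀ ϖ) = 0 := by
    have h3 : rs R (σ₀ ϖ) = rs R ϖ := congrArg (fun f : R →+* kR R => f ϖ) h2
    rw [h3, IsLocalRing.residue_eq_zero_iff, IsLocalRing.mem_maximalIdeal]
    exact hϖ.not_isUnit
  rw [IsLocalRing.residue_eq_zero_iff, hϖ.maximalIdeal_eq, Ideal.mem_span_singleton] at h1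
  exact h1

theorem residue_pow_eq (hζ : IsPrimitiveRoot ζ p) (hϖ : Irreducible ϖ) (σ₀ : R →+* R)
    (h2 : (rs R).comp σ₀ = rs R) {a : ℕ} (ha : σ₀ ζ = ζ ^ a) {t : R} (ht : σ₀ ϖ = ϖ * t)
    {d : ℕ} {u : Rˣ} (h : ζ - 1 = u * ϖ ^ d) : rs R t ^ (p * d) = (a : kR R) := by
  have hσ : ∀ x : R, rs R (σ₀ x) = rs R x := fun x => congrArg (fun f : R →+* kR R => f x) h2
  have h1 : σ₀ (ζ - 1) = (ζ - 1) * ∑ i ∈ Finset.range a, ζ ^ i := by
    rw [mul_geom_sum, map_sub, ha, map_one]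
  have h3 : σ₀ (ζ - 1) = σ₀ u * t ^ d * ϖ ^ d := by
    rw [h, map_mul, map_pow, ht, mul_pow]
    ring
  have h4 : (u : R) * (∑ i ∈ Finset.range a, ζ ^ i) * ϖ ^ d = σ₀ u * t ^ d * ϖ ^ d := by
    rw [← h3, h1, h]
    ring
  have h5 := mul_right_cancel₀ (pow_ne_zero d hϖ.ne_zero) h4
  have h6 := congrArg (rs R) h5
  rw [map_mul, map_mul, hσ, map_sum, map_pow] at h6
  simp only [map_pow, residue_zeta hζ, one_pow, Finset.sum_const, Finset.card_range,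
    nsmul_eq_mul, mul_one] at h6
  have h7 : (a : kR R) = rs R t ^ d := mul_left_cancel₀ (u.isUnit.map (rs R)).ne_zero h6
  rw [mul_comm, pow_mul, ← h7]
  have h8 := map_natCast (frobenius (kR R) p) a
  rwa [frobenius_def] at h8

end

end Fermat.Agent.S33.Calc
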