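import Fermat.Agent.S33.Calc.Red
import Fermat.Agent.S33.Calc.Norm
import Fermat.Agent.S33.Calc.NormRed

/-!
# S33 / Calc / Ops : the operators `V`, `θ`, `s`, `Nm` and the Gauss reduction `Red0`

PROOF SKETCHES (`x y₂ = y₁`, `ȳ₁ = r ȳ₂`, `ȳ₂ ≠ 0`).
* `vq` : copy of `SS.RedTo.vq`.
* `theta` : `θx * y₂² = θy₁ * y₂ - y₁ * θy₂` (Leibniz for `x y₂ = y₁`, multiply by `y₂`); numerator
  `θy₁ * y₂ - y₁ * θy₂`, denominator `y₂²`; `coeffMap_theta` for `ι` and for `rs R`; downstairs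
  `θȳ₁ ȳ₂ - ȳ₁ θȳ₂ = θr ȳ₂²` (Leibniz for `ȳ₁ = r ȳ₂`).
* `map` : apply `coeffMap σ₀` to `y₁ y₂` (`coeffMap_coeffMap`), as in `SS.RedTo.gal`.
* `normSer_expand` : `(1 + π^j x) y₂ = y₂ + C (ϖ^j) y₁`.  `normSer` is multiplicative over `K`
  (`ES.normSer_mul` with the primitive root `ι ζ`: `IsPrimitiveRoot.map_of_injective`), commutes with
  `coeffMap ι` (`coeffMap_normSer`), and `normSer_add_mul` over `R` gives
  `normSer (y₂ + C (ϖ^j) y₁) = N₂ + C (ϖ^j)^p N₁ + p C (ϖ^j) B₀`, `N_i = normSer y_i`.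
  `N̄₂ = Fr ȳ₂ ≠ 0` (`coeffMap_normSer_of_char`).  `x' := ι N₁ / ι N₂`, `B := ι B₀ / ι N₂`;
  `Red0 x' (Fr ȳ₁ / Fr ȳ₂)` and `Fr ȳ₁ = Fr r * Fr ȳ₂`.
-/

set_option autoImplicit false

open AlgebraicCurve ModularCurve

namespace Fermat.Agent.S33.Calc

open Fermat.Agent.ES

noncomputable section

variable {R K : Type*} [CommRing R] [IsDomain R] [IsDiscreteValuationRing R] [Field K]
  {ι : R →+* K} {x : LaurentSeries K} {r : LaurentSeries (kR R)}

/-- (helper) `coeffMap` of a constant. -/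
theorem Ops_coeffMap_C {R' S' : Type*} [CommRing R'] [CommRing S'] (f : R' →+* S') (a : R') :
    coeffMap f (HahnSeries.C a) = HahnSeries.C (f a) := by
  rw [HahnSeries.C_apply, coeffMap_single, HahnSeries.C_apply]

/-- (helper) `coeffMap` along an injective map is injective. -/
theorem Ops_coeffMap_ne_zero {R' S' : Type*} [CommRing R'] [CommRing S'] (f : R' →+* S')
    (hf : Function.Injective f) {y : LaurentSeries R'} (hy : y ≠ 0) : coeffMap f y ≠ 0 := by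
  intro h
  apply hy
  ext n
  have h1 := congrArg (fun z => z.coeff n) h
  simp only [coeffMap_coeff, HahnSeries.coeff_zero] at h1
  rw [HahnSeries.coeff_zero]
  exact (map_eq_zero_iff f hf).1 h1

/-- (helper) the Leibniz rule. -/
theorem Ops_theta_mul {R' : Type*} [CommRing R'] (a b : LaurentSeries R') :
    theta R' (a * b) = a * theta R' b + b * theta R' a := thetaFun_mul a b

theorem Red0.vq (ℓ : ℕ) [NeZero ℓ] (h : Red0 ι x r) :
    Red0 ι (Vq K ℓ x) (Vq (kR R) ℓ r) := by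
  obtain ⟨y₁, y₂, h0, h1, h2⟩ := h
  refine ⟨Vq R ℓ y₁, Vq R ℓ y₂, ?_, ?_, ?_⟩
  · rw [coeffMap_Vq]
    intro h
    exact h0 (Vq_injective ℓ (by rw [h, map_zero]))
  · rw [coeffMap_Vq, coeffMap_Vq, ← map_mul, h1]
  · rw [coeffMap_Vq, coeffMap_Vq, ← map_mul, h2]

theorem Red0.theta (h : Red0 ι x r) : Red0 ι (theta K x) (theta (kR R) r) := by
  obtain ⟨y₁, y₂, h0, h1, h2⟩ := h
  refine ⟨Calc.theta R y₁ * y₂ - y₁ * Calc.theta R y₂, y₂ * y₂, ?_, ?_, ?_⟩
  · rw [map_mul]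
    exact mul_ne_zero h0 h0
  · have h3 := Ops_theta_mul x (coeffMap ι y₂)
    rw [h1] at h3
    rw [map_mul, map_sub, map_mul, map_mul, coeffMap_theta, coeffMap_theta, h3, ← h1]
    ring
  · have h3 := Ops_theta_mul r (coeffMap (rs R) y₂)
    rw [← h2] at h3
    rw [map_mul, map_sub, map_mul, map_mul, coeffMap_theta, coeffMap_theta, h3, h2]
    ring

theorem Red0.map (σ : K →+* K) (σ₀ : R →+* R) (h1 : σ.comp ι = ι.comp σ₀)
    (h2 : (rs R).comp σ₀ = rs R) (h : Red0 ι x r) : Red0 ι (coeffMap σ x) r := by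
  obtain ⟨y₁, y₂, h0, h3, h4⟩ := h
  have key : ∀ y : LaurentSeries R, coeffMap (rs R) (coeffMap σ₀ y) = coeffMap (rs R) y := fun y => by
    rw [coeffMap_coeffMap, h2]
  have key' : ∀ y : LaurentSeries R, coeffMap ι (coeffMap σ₀ y) = coeffMap σ (coeffMap ι y) :=
    fun y => by rw [coeffMap_coeffMap, coeffMap_coeffMap, h1]
  refine ⟨coeffMap σ₀ y₁, coeffMap σ₀ y₂, ?_, ?_, ?_⟩
  · rw [key]; exact h0
  · rw [key', key', ← map_mul, h3]
  · rw [key, key, h4]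

theorem Red0.normSer_expand (p : ℕ) [Fact p.Prime] [NeZero p] [CharP (kR R) p]
    (hι : Function.Injective ι) {ζ : R} (hζ : IsPrimitiveRoot ζ p) (ϖ : R) {j : ℕ}
    (h : Red0 ι x r) :
    ∃ (x' B : LaurentSeries K) (b : LaurentSeries (kR R)),
      Red0 ι x' (coeffMap (frobenius (kR R) p) r) ∧ Red0 ι B b ∧
      normSer p (1 + HahnSeries.C (ι ϖ) ^ j * x)
        = 1 + HahnSeries.C (ι ϖ) ^ (p * j) * x'
          + (p : LaurentSeries K) * HahnSeries.C (ι ϖ) ^ j * B := by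
  obtain ⟨y₁, y₂, h0, h1, h2⟩ := h
  have hp : p.Prime := Fact.out
  have hζK : IsPrimitiveRoot (ι ζ) p := hζ.map_of_injective hι
  obtain ⟨B₀, hB₀⟩ := normSer_add_mul p hp hζ (ϖ ^ j) y₂ y₁
  -- the reduction of the denominator
  have hN₂r : coeffMap (rs R) (normSer p y₂) ≠ 0 := by
    rw [coeffMap_normSer_of_char p (rs R) hζ]
    exact Ops_coeffMap_ne_zero _ (frobenius (kR R) p).injective h0
  have hN₂ : normSer p y₂ ≠ 0 := by
    intro h
    rw [h, map_zero] at hN₂r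
    exact hN₂r rfl
  have hN₂K : coeffMap ι (normSer p y₂) ≠ 0 := Ops_coeffMap_ne_zero ι hι hN₂
  -- the main identity
  have hmain : normSer p (1 + HahnSeries.C (ι ϖ) ^ j * x) * coeffMap ι (normSer p y₂)
      = coeffMap ι (normSer p y₂) + HahnSeries.C (ι ϖ) ^ (p * j) * coeffMap ι (normSer p y₁)
        + (p : LaurentSeries K) * HahnSeries.C (ι ϖ) ^ j * coeffMap ι B₀ := by
    rw [coeffMap_normSer p ι hι hζ y₂, ← normSer_mul p hζK]
    have h3 : (1 + HahnSeries.C (ι ϖ) ^ j * x) * coeffMap ι y₂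
        = coeffMap ι (y₂ + HahnSeries.C (ϖ ^ j) * y₁) := by
      rw [map_add, map_mul, Ops_coeffMap_C, map_pow, map_pow, ← h1]
      ring
    rw [h3, ← coeffMap_normSer p ι hι hζ, hB₀, map_add, map_add, map_mul, map_mul, map_mul,
      Ops_coeffMap_C, Ops_coeffMap_C, map_natCast, map_pow, map_pow, map_pow, map_pow,
      ← pow_mul, mul_comm j p, coeffMap_normSer p ι hι hζ y₂]
  refine ⟨coeffMap ι (normSer p y₁) / coeffMap ι (normSer p y₂),
    coeffMap ι B₀ / coeffMap ι (normSer p y₂),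
    coeffMap (rs R) B₀ / coeffMap (rs R) (normSer p y₂), ?_, ?_, ?_⟩
  · refine ⟨normSer p y₁, normSer p y₂, hN₂r, div_mul_cancel₀ _ hN₂K, ?_⟩
    rw [coeffMap_normSer_of_char p (rs R) hζ, coeffMap_normSer_of_char p (rs R) hζ, h2, map_mul]
  · exact ⟨B₀, normSer p y₂, hN₂r, div_mul_cancel₀ _ hN₂K, (div_mul_cancel₀ _ hN₂r).symm⟩
  · rw [eq_div_of_mul_eq hN₂K hmain]
    field_simp

end

end Fermat.Agent.S33.Calc
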