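import Fermat.Agent.S33.Calc.Theta
import Fermat.Agent.S33.Good.Pkg

/-!
# S33 / Calc / Red : the Gauss reduction relation over a DVR, and the instance of `Good.RedPkg`

`R` a DVR with uniformiser `ϖ`, residue field `k = kR R`; `ι : R →+* K` an injective ring homomorphism
to a field `K` (NOT nec. the fraction field: in the application `R = A ∩ K₀`, `K = ℚ̄`).

`Red0 ι x r` : `x ∈ K((q))` is a quotient `y₁ / y₂` of series over `R`, `ȳ₂ ≠ 0`, `ȳ₁ = r ȳ₂`.

PROOF SKETCHES: `one`, `mul`, `inv`, `unique` are copies of `SS.RedTo.*` (`SS/Formal/Red.lean`) with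
`A.subtype ↝ ι`, `coeffMap_subtype_injective ↝ Crux.coeffMap_injective ι hι` (or reprove: 3 lines).
* `add` : `x + x' = (y₁ z₂ + z₁ y₂) / (y₂ z₂)`.     * `neg` : `(-y₁) / y₂`.
* `C` : `y₁ = C a`, `y₂ = 1` (`coeffMap_single`, `HahnSeries.C_apply`).
* `exists_C_mul` : if `coeffMap res y = 0` all coefficients are divisible by `ϖ`
  (`IsLocalRing.residue_eq_zero_iff`, `Irreducible.maximalIdeal_eq`, `Ideal.mem_span_singleton`); choose
  quotients; the support of the quotient series is contained in that of `y` (`R` is a domain: choose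
  `0` for `0`, or note `ϖ * c = 0 → c = 0`).
* `zero` : `Red0 x 0` gives `ȳ₁ = 0`, `y₁ = C ϖ * y₁'`; `y := coeffMap ι y₁' / coeffMap ι y₂`, with
  reduction `ȳ₁' / ȳ₂`.
* `exists_primitive` : a nonzero `y ∈ R((q))` is `C ϖ ^ n * y'` with `ȳ' ≠ 0`: take `n` minimal among the
  `addVal`s of the nonzero coefficients (`Nat.find`), or: induction using `exists_C_mul` and the fact that
  one fixed nonzero coefficient `y_m = unit * ϖ^N` bounds `n ≤ N`.
* `pivot` : `exists_primitive` for `y₁` and `y₂`.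
-/

set_option autoImplicit false

open AlgebraicCurve ModularCurve

namespace Fermat.Agent.S33.Calc

open Fermat.Agent.ES

noncomputable section

/-- the residue field -/
abbrev kR (R : Type*) [CommRing R] [IsLocalRing R] : Type _ := IsLocalRing.ResidueField R

/-- the residue map -/
abbrev rs (R : Type*) [CommRing R] [IsLocalRing R] : R →+* kR R := IsLocalRing.residue R

variable {R K : Type*} [CommRing R] [IsDomain R] [IsDiscreteValuationRing R] [Field K]
  (ι : R →+* K)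

/-- `x` is Gauss-integral with reduction `r`. -/
def Red0 (x : LaurentSeries K) (r : LaurentSeries (kR R)) : Prop :=
  ∃ y₁ y₂ : LaurentSeries R, coeffMap (rs R) y₂ ≠ 0 ∧
    x * coeffMap ι y₂ = coeffMap ι y₁ ∧ coeffMap (rs R) y₁ = r * coeffMap (rs R) y₂

variable {ι} {x x' : LaurentSeries K} {r r' : LaurentSeries (kR R)}

/-! ### auxiliary lemmas -/

theorem Red_coeffMap_injective {S T : Type*} [CommRing S] [CommRing T] (f : S →+* T)
    (hf : Function.Injective f) : Function.Injective (coeffMap f) := by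
  intro x y h
  ext n
  have := congrArg (fun s => s.coeff n) h
  exact hf (by simpa [coeffMap_coeff] using this)

theorem Red_coeffMap_C {S T : Type*} [CommRing S] [CommRing T] (f : S →+* T) (a : S) :
    coeffMap f (HahnSeries.C a : LaurentSeries S) = HahnSeries.C (f a) := by
  rw [HahnSeries.C_apply, HahnSeries.C_apply, coeffMap_single]

theorem Red_coeff_C_mul {S : Type*} [CommRing S] (a : S) (y : LaurentSeries S) (n : ℤ) :
    (HahnSeries.C a * y).coeff n = a * y.coeff n := by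
  rw [HahnSeries.C_mul_eq_smul, HahnSeries.coeff_smul, smul_eq_mul]

/-- the kernel of `ι` consists of nonunits. -/
theorem Red_rs_eq_zero_of_map_eq_zero (ι : R →+* K) {z : R} (hz : ι z = 0) : rs R z = 0 := by
  rw [IsLocalRing.residue_eq_zero_iff, IsLocalRing.mem_maximalIdeal, mem_nonunits_iff]
  intro hu
  exact (hu.map ι).ne_zero hz

/-- an identity between series over `R` which holds after `ι` holds after reduction. -/
theorem Red_rs_eq_of_map_eq (ι : R →+* K) {y z : LaurentSeries R}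
    (h : coeffMap ι y = coeffMap ι z) : coeffMap (rs R) y = coeffMap (rs R) z := by
  ext n
  have h1 := congrArg (fun s => s.coeff n) h
  simp only [coeffMap_coeff] at h1
  rw [coeffMap_coeff, coeffMap_coeff, ← sub_eq_zero, ← map_sub]
  exact Red_rs_eq_zero_of_map_eq_zero ι (by rw [map_sub, h1, sub_self])

theorem Red_map_ne_zero (ι : R →+* K) {y : LaurentSeries R} (h : coeffMap (rs R) y ≠ 0) :
    coeffMap ι y ≠ 0 := by
  intro h0
  apply h
  have := Red_rs_eq_of_map_eq ι (y := y) (z := 0) (by rw [h0, map_zero])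
  rwa [map_zero] at this

/-! ### the calculus -/

theorem Red0.one : Red0 ι (1 : LaurentSeries K) 1 := by
  refine ⟨1, 1, ?_, ?_, ?_⟩
  · rw [map_one]; exact one_ne_zero
  · rw [map_one, mul_one]
  · rw [map_one, mul_one]

theorem Red0.add (h : Red0 ι x r) (h' : Red0 ι x' r') : Red0 ι (x + x') (r + r') := by
  obtain ⟨y₁, y₂, h0, h1, h2⟩ := h
  obtain ⟨z₁, z₂, k0, k1, k2⟩ := h'
  refine ⟨y₁ * z₂ + z₁ * y₂, y₂ * z₂, ?_, ?_, ?_⟩
  · rw [map_mul]; exact mul_ne_zero h0 k0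
  · rw [map_add, map_mul, map_mul, map_mul, ← h1, ← k1]; ring
  · rw [map_add, map_mul, map_mul, map_mul, h2, k2]; ring

theorem Red0.neg (h : Red0 ι x r) : Red0 ι (-x) (-r) := by
  obtain ⟨y₁, y₂, h0, h1, h2⟩ := h
  refine ⟨-y₁, y₂, h0, ?_, ?_⟩
  · rw [map_neg, ← h1, neg_mul]
  · rw [map_neg, h2, neg_mul]

theorem Red0.mul (h : Red0 ι x r) (h' : Red0 ι x' r') : Red0 ι (x * x') (r * r') := by
  obtain ⟨y₁, y₂, h0, h1, h2⟩ := h
  obtain ⟨z₁, z₂, k0, k1, k2⟩ := h'
  refine ⟨y₁ * z₁, y₂ * z₂, ?_, ?_, ?_⟩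
  · rw [map_mul]; exact mul_ne_zero h0 k0
  · rw [map_mul, map_mul, ← h1, ← k1]; ring
  · rw [map_mul, map_mul, h2, k2]; ring

theorem Red0.inv (hι : Function.Injective ι) (h : Red0 ι x r) (hr : r ≠ 0) : Red0 ι x⁻¹ r⁻¹ := by
  obtain ⟨y₁, y₂, h0, h1, h2⟩ := h
  have h3 : coeffMap (rs R) y₁ ≠ 0 := by rw [h2]; exact mul_ne_zero hr h0
  have h4 : coeffMap ι y₁ ≠ 0 := Red_map_ne_zero ι h3
  have hx : x ≠ 0 := by
    rintro rfl
    rw [zero_mul] at h1
    exact h4 h1.symm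
  refine ⟨y₂, y₁, h3, ?_, ?_⟩
  · rw [← h1, inv_mul_cancel_left₀ hx]
  · rw [h2, inv_mul_cancel_left₀ hr]

theorem Red0.unique (hι : Function.Injective ι) (h : Red0 ι x r) (h' : Red0 ι x r') : r = r' := by
  obtain ⟨y₁, y₂, h0, h1, h2⟩ := h
  obtain ⟨z₁, z₂, k0, k1, k2⟩ := h'
  have e' : coeffMap (rs R) (y₁ * z₂) = coeffMap (rs R) (z₁ * y₂) := by
    apply Red_rs_eq_of_map_eq ι
    rw [map_mul, map_mul, ← h1, ← k1]; ring
  rw [map_mul, map_mul, h2, k2] at e'
  have e'' : r * (coeffMap (rs R) y₂ * coeffMap (rs R) z₂)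
      = r' * (coeffMap (rs R) y₂ * coeffMap (rs R) z₂) := by
    linear_combination e'
  exact mul_right_cancel₀ (mul_ne_zero h0 k0) e''

/-- series over `R` -/
theorem Red0.of_series (y : LaurentSeries R) : Red0 ι (coeffMap ι y) (coeffMap (rs R) y) := by
  refine ⟨y, 1, ?_, ?_, ?_⟩
  · rw [map_one]; exact one_ne_zero
  · rw [map_one, mul_one]
  · rw [map_one, mul_one]

/-- integral constants -/
theorem Red0.C (a : R) : Red0 ι (HahnSeries.C (ι a)) (HahnSeries.C (rs R a)) := by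
  have h := Red0.of_series (ι := ι) (HahnSeries.C a : LaurentSeries R)
  rwa [Red_coeffMap_C, Red_coeffMap_C] at h

/-- a Gauss-integral constant comes from `R`. -/
theorem Red0.const {c : K} (h : Red0 ι (HahnSeries.C c) r) :
    ∃ a : R, ι a = c ∧ r = HahnSeries.C (rs R a) := by
  obtain ⟨y₁, y₂, h0, h1, h2⟩ := h
  obtain ⟨n, hn⟩ : ∃ n, (coeffMap (rs R) y₂).coeff n ≠ 0 := by
    by_contra hcon
    push Not at hcon
    exact h0 (HahnSeries.ext (funext hcon))
  rw [coeffMap_coeff] at hn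
  have hu : IsUnit (y₂.coeff n) := by
    by_contra hu
    exact hn ((IsLocalRing.residue_eq_zero_iff _).mpr ((IsLocalRing.mem_maximalIdeal _).mpr hu))
  obtain ⟨u, hu⟩ := hu
  have e := congrArg (fun s => s.coeff n) h1
  simp only [Red_coeff_C_mul, coeffMap_coeff] at e
  have hd : ι (y₁.coeff n * (u⁻¹ : Rˣ)) = c := by
    have hu1 : ι (y₂.coeff n) * ι ((u⁻¹ : Rˣ) : R) = 1 := by
      rw [← hu, ← map_mul, Units.mul_inv, map_one]
    rw [map_mul, ← e, mul_assoc, hu1, mul_one]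
  refine ⟨y₁.coeff n * (u⁻¹ : Rˣ), hd, ?_⟩
  have e2 : coeffMap (rs R) (HahnSeries.C (y₁.coeff n * (u⁻¹ : Rˣ)) * y₂) = coeffMap (rs R) y₁ := by
    apply Red_rs_eq_of_map_eq ι
    rw [map_mul, Red_coeffMap_C, hd, h1]
  rw [map_mul, Red_coeffMap_C, h2] at e2
  exact (mul_right_cancel₀ h0 e2).symm

theorem exists_C_mul {ϖ : R} (hϖ : Irreducible ϖ) (y : LaurentSeries R)
    (hy : coeffMap (rs R) y = 0) : ∃ y' : LaurentSeries R, y = HahnSeries.C ϖ * y' := by
  classical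
  have hdvd : ∀ n, ϖ ∣ y.coeff n := by
    intro n
    have h1 := congrArg (fun s => s.coeff n) hy
    simp only [coeffMap_coeff, HahnSeries.coeff_zero] at h1
    rw [IsLocalRing.residue_eq_zero_iff, hϖ.maximalIdeal_eq, Ideal.mem_span_singleton] at h1
    exact h1
  choose t ht using hdvd
  let y' : LaurentSeries R :=
    { coeff := fun n => if y.coeff n = 0 then 0 else t n
      isPWO_support' := y.isPWO_support.mono fun n hn => by
        simp only [Function.mem_support, ne_eq] at hn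
        rw [HahnSeries.mem_support]
        intro h0
        exact hn (if_pos h0) }
  refine ⟨y', ?_⟩
  ext n
  rw [Red_coeff_C_mul]
  change y.coeff n = ϖ * (if y.coeff n = 0 then 0 else t n)
  split_ifs with h0
  · rw [h0, mul_zero]
  · exact ht n

theorem Red0.zero (hι : Function.Injective ι) {ϖ : R} (hϖ : Irreducible ϖ) (h : Red0 ι x 0) :
    ∃ (y : LaurentSeries K) (s : LaurentSeries (kR R)), Red0 ι y s ∧
      x = HahnSeries.C (ι ϖ) * y := by
  obtain ⟨y₁, y₂, h0, h1, h2⟩ := h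
  rw [zero_mul] at h2
  obtain ⟨y₁', rfl⟩ := exists_C_mul hϖ y₁ h2
  have h3 : coeffMap ι y₂ ≠ 0 := Red_map_ne_zero ι h0
  refine ⟨coeffMap ι y₁' / coeffMap ι y₂, coeffMap (rs R) y₁' / coeffMap (rs R) y₂,
    ⟨y₁', y₂, h0, div_mul_cancel₀ _ h3, (div_mul_cancel₀ _ h0).symm⟩, ?_⟩
  rw [map_mul, Red_coeffMap_C] at h1
  rw [mul_div_assoc', ← h1, mul_div_cancel_right₀ _ h3]

theorem exists_primitive {ϖ : R} (hϖ : Irreducible ϖ) (y : LaurentSeries R) (hy : y ≠ 0) :
    ∃ (n : ℕ) (y' : LaurentSeries R), coeffMap (rs R) y' ≠ 0 ∧ y = HahnSeries.C ϖ ^ n * y' := by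
  by_contra hcon
  push Not at hcon
  have hall : ∀ n : ℕ, ∃ y' : LaurentSeries R, y = HahnSeries.C ϖ ^ n * y' := by
    intro n
    induction n with
    | zero => exact ⟨y, by rw [pow_zero, one_mul]⟩
    | succ n ih =>
      obtain ⟨y', hy'⟩ := ih
      have h0 : coeffMap (rs R) y' = 0 := by
        by_contra h0
        exact hcon n y' h0 hy'
      obtain ⟨y'', rfl⟩ := exists_C_mul hϖ y' h0
      exact ⟨y'', by rw [hy', pow_succ, mul_assoc]⟩
  obtain ⟨m, hm⟩ : ∃ m, y.coeff m ≠ 0 := by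
    by_contra hcon'
    push Not at hcon'
    exact hy (HahnSeries.ext (funext hcon'))
  obtain ⟨N, hN⟩ := FiniteMultiplicity.of_not_isUnit hϖ.not_isUnit hm
  obtain ⟨y', hy'⟩ := hall (N + 1)
  apply hN
  rw [hy', ← map_pow, Red_coeff_C_mul]
  exact Dvd.intro _ rfl

/-- every nonzero quotient of series over `R` is a power of `ϖ` times a Gauss unit. -/
theorem Red0.pivot (hι : Function.Injective ι) {ϖ : R} (hϖ : Irreducible ϖ)
    (y₁ y₂ : LaurentSeries R) (h₁ : y₁ ≠ 0) (h₂ : y₂ ≠ 0)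
    (h : x * coeffMap ι y₂ = coeffMap ι y₁) :
    ∃ (n : ℤ) (u : LaurentSeries K) (s : LaurentSeries (kR R)), s ≠ 0 ∧ Red0 ι u s ∧
      x = HahnSeries.C (ι ϖ) ^ n * u := by
  obtain ⟨n₁, z₁, hz₁, rfl⟩ := exists_primitive hϖ y₁ h₁
  obtain ⟨n₂, z₂, hz₂, rfl⟩ := exists_primitive hϖ y₂ h₂
  have h3 : coeffMap ι z₂ ≠ 0 := Red_map_ne_zero ι hz₂
  have hC : (HahnSeries.C (ι ϖ) : LaurentSeries K) ≠ 0 := by
    rw [Ne, map_eq_zero_iff _ HahnSeries.C_injective, map_eq_zero_iff _ hι]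
    exact hϖ.ne_zero
  refine ⟨(n₁ : ℤ) - n₂, coeffMap ι z₁ / coeffMap ι z₂, coeffMap (rs R) z₁ / coeffMap (rs R) z₂,
    div_ne_zero hz₁ hz₂, ⟨z₁, z₂, hz₂, div_mul_cancel₀ _ h3, (div_mul_cancel₀ _ hz₂).symm⟩, ?_⟩
  rw [map_mul, map_mul, map_pow, map_pow, Red_coeffMap_C] at h
  rw [zpow_sub₀ hC, zpow_natCast, zpow_natCast]
  field_simp
  linear_combination h

variable (ι)

/-- **The instance of `RedPkg`.** -/
def redPkg (hι : Function.Injective ι) (ϖ : R) (hϖ : Irreducible ϖ) :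
    Good.RedPkg (LaurentSeries K) (LaurentSeries (kR R)) where
  Red := Red0 ι
  red_one := Red0.one
  red_add := Red0.add
  red_neg := Red0.neg
  red_mul := Red0.mul
  red_inv := Red0.inv hι
  red_unique := Red0.unique hι
  π := HahnSeries.C (ι ϖ)
  pi_ne := by
    rw [Ne, map_eq_zero_iff _ HahnSeries.C_injective, map_eq_zero_iff _ hι]
    exact hϖ.ne_zero
  red_pi := by
    have h := Red0.C (ι := ι) ϖ
    rwa [(IsLocalRing.residue_eq_zero_iff ϖ).mpr
      ((IsLocalRing.mem_maximalIdeal ϖ).mpr hϖ.not_isUnit), map_zero] at h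
  red_zero := Red0.zero hι hϖ

/-- The field of quotients of series over `R`, inside `K((q))`. -/
def fracField (hι : Function.Injective ι) : Subfield (LaurentSeries K) where
  carrier := {x | ∃ y₁ y₂ : LaurentSeries R, y₂ ≠ 0 ∧ x * coeffMap ι y₂ = coeffMap ι y₁}
  mul_mem' := by
    rintro x x' ⟨y₁, y₂, h0, h1⟩ ⟨z₁, z₂, k0, k1⟩
    refine ⟨y₁ * z₁, y₂ * z₂, mul_ne_zero h0 k0, ?_⟩
    rw [map_mul, map_mul, ← h1, ← k1]; ring
  one_mem' := ⟨1, 1, one_ne_zero, by simp⟩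
  add_mem' := by
    rintro x x' ⟨y₁, y₂, h0, h1⟩ ⟨z₁, z₂, k0, k1⟩
    refine ⟨y₁ * z₂ + z₁ * y₂, y₂ * z₂, mul_ne_zero h0 k0, ?_⟩
    rw [map_add, map_mul, map_mul, map_mul, ← h1, ← k1]; ring
  zero_mem' := ⟨0, 1, one_ne_zero, by simp⟩
  neg_mem' := by
    rintro x ⟨y₁, y₂, h0, h1⟩
    exact ⟨-y₁, y₂, h0, by rw [map_neg, ← h1, neg_mul]⟩
  inv_mem' := by
    rintro x ⟨y₁, y₂, h0, h1⟩
    rcases eq_or_ne x 0 with rfl | hx
    · exact ⟨0, 1, one_ne_zero, by simp⟩
    · have h2 : coeffMap ι y₂ ≠ 0 := fun h =>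
        h0 (Red_coeffMap_injective ι hι (by rw [h, map_zero]))
      have h3 : y₁ ≠ 0 := by
        rintro rfl
        rw [map_zero] at h1
        exact mul_ne_zero hx h2 h1
      exact ⟨y₂, y₁, h3, by rw [← h1, inv_mul_cancel_left₀ hx]⟩

end

end Fermat.Agent.S33.Calc
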