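import Fermat.Agent.ES.B.Red

/-!
# S33 / Calc / Theta : the derivation `θ = q d/dq` of `R((q))`

* `theta R : Derivation ℤ R((q)) R((q))`, `(θ x)_n = n x_n`;
* compatibility with `coeffMap`, `Vq`, constants;
* (KV) `V^n r - r` constant ⟹ `r` constant; (KV0) `V r` constant ⟹ `r` constant.
-/

set_option autoImplicit false

open AlgebraicCurve ModularCurve

namespace Fermat.Agent.S33.Calc

open Fermat.Agent.ES

noncomputable section

variable (R : Type*) [CommRing R]

/-- `θ` as a function. -/
def thetaFun (x : LaurentSeries R) : LaurentSeries R where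
  coeff n := (n : R) * x.coeff n
  isPWO_support' := x.isPWO_support.mono fun n hn => by
    simp only [Function.mem_support, ne_eq] at hn ⊢
    intro h
    exact hn (by rw [h, mul_zero])

variable {R}

@[simp]
theorem thetaFun_coeff (x : LaurentSeries R) (n : ℤ) :
    (thetaFun R x).coeff n = (n : R) * x.coeff n := rfl

theorem thetaFun_support (x : LaurentSeries R) : (thetaFun R x).support ⊆ x.support := by
  intro n hn
  simp only [HahnSeries.mem_support, thetaFun_coeff, ne_eq] at hn ⊢
  intro h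
  exact hn (by rw [h, mul_zero])

theorem thetaFun_mul (x y : LaurentSeries R) :
    thetaFun R (x * y) = x * thetaFun R y + y * thetaFun R x := by
  ext n
  rw [thetaFun_coeff, HahnSeries.coeff_add, HahnSeries.coeff_mul,
    HahnSeries.coeff_mul_right' (x := x) (y := thetaFun R y) y.isPWO_support (thetaFun_support y),
    mul_comm y (thetaFun R x),
    HahnSeries.coeff_mul_left' (x := thetaFun R x) (y := y) x.isPWO_support (thetaFun_support x),
    Finset.mul_sum, ← Finset.sum_add_distrib]
  refine Finset.sum_congr rfl fun ij hij => ?_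
  have h : ij.1 + ij.2 = n := (Finset.mem_antidiagonal.mp hij).2.2
  rw [thetaFun_coeff, thetaFun_coeff, ← h]
  push_cast
  ring

/-- a `ℤ`-derivation from an additive map satisfying the Leibniz rule (stated for an abstract ring,
so that the `ℤ`-module structures are the canonical ones). -/
abbrev DerInt (B : Type*) [CommRing B] : Type _ := Derivation ℤ B B

/-- see `DerInt`. -/
def mkDerivInt {B : Type*} [CommRing B] (f : B →+ B) (h : ∀ a b, f (a * b) = a * f b + b * f a) :
    DerInt B :=
  Derivation.mk' f.toIntLinearMap (fun a b => by simpa [smul_eq_mul] using h a b)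

@[simp]
theorem mkDerivInt_apply {B : Type*} [CommRing B] (f : B →+ B)
    (h : ∀ a b, f (a * b) = a * f b + b * f a) (x : B) : mkDerivInt f h x = f x := rfl

variable (R)

/-- `θ = q d/dq`. -/
def theta : DerInt (LaurentSeries R) :=
  mkDerivInt
    { toFun := thetaFun R
      map_zero' := by ext n; simp
      map_add' := fun x y => by ext n; simp [mul_add] }
    thetaFun_mul

variable {R}

@[simp]
theorem theta_coeff (x : LaurentSeries R) (n : ℤ) : (theta R x).coeff n = (n : R) * x.coeff n := rfl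

theorem coeffMap_theta {S : Type*} [CommRing S] (f : R →+* S) (x : LaurentSeries R) :
    coeffMap f (theta R x) = theta S (coeffMap f x) := by
  ext n
  simp [coeffMap_coeff]

theorem coeff_natCast_mul (m : ℕ) (x : LaurentSeries R) (n : ℤ) :
    ((m : LaurentSeries R) * x).coeff n = (m : R) * x.coeff n := by
  rw [← nsmul_eq_mul, ← nsmul_eq_mul]
  induction m with
  | zero => simp
  | succ m ih => rw [succ_nsmul, succ_nsmul, HahnSeries.coeff_add, ih]

theorem theta_Vq (ℓ : ℕ) [NeZero ℓ] (x : LaurentSeries R) :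
    theta R (Vq R ℓ x) = (ℓ : LaurentSeries R) * Vq R ℓ (theta R x) := by
  ext n
  rw [theta_coeff, coeff_natCast_mul]
  by_cases hn : (ℓ : ℤ) ∣ n
  · obtain ⟨k, rfl⟩ := hn
    rw [qExpand_coeff_mul, qExpand_coeff_mul, theta_coeff]
    push_cast
    ring
  · rw [qExpand_coeff_of_not_dvd ℓ _ hn, qExpand_coeff_of_not_dvd ℓ _ hn]
    simp

theorem theta_single_zero (c : R) : theta R (HahnSeries.single 0 c) = 0 := by
  ext n
  rw [theta_coeff, HahnSeries.coeff_zero]
  by_cases hn : n = 0
  · subst hn; simp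
  · rw [HahnSeries.coeff_single_of_ne hn, mul_zero]

theorem theta_eq_zero_iff {k : Type*} [Field k] (p : ℕ) [CharP k p] (x : LaurentSeries k) :
    theta k x = 0 ↔ ∀ n : ℤ, ¬ (p : ℤ) ∣ n → x.coeff n = 0 := by
  constructor
  · intro h n hn
    have h1 := congrArg (fun y => y.coeff n) h
    simp only [theta_coeff, HahnSeries.coeff_zero, mul_eq_zero] at h1
    rcases h1 with h1 | h1
    · exact absurd ((CharP.intCast_eq_zero_iff k p n).mp h1) hn
    · exact h1
  · intro h
    ext n
    rw [theta_coeff, HahnSeries.coeff_zero]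
    by_cases hn : (p : ℤ) ∣ n
    · rw [(CharP.intCast_eq_zero_iff k p n).mpr hn, zero_mul]
    · rw [h n hn, mul_zero]

/-- (KV0) -/
theorem eq_single_of_Vq_eq_single (ℓ : ℕ) [NeZero ℓ] (r : LaurentSeries R) (c : R)
    (h : Vq R ℓ r = HahnSeries.single 0 c) : r = HahnSeries.single 0 c := by
  apply Vq_injective (R := R) ℓ
  rw [h, qExpand_single, mul_zero]

/-- (helper for KV) the coefficients of an iterate of `Vq`. -/
theorem iterate_Vq_coeff (ℓ : ℕ) [NeZero ℓ] (n : ℕ) (r : LaurentSeries R) :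
    (∀ m : ℤ, ((Vq R ℓ)^[n] r).coeff ((ℓ : ℤ) ^ n * m) = r.coeff m) ∧
      ∀ k : ℤ, ¬ (ℓ : ℤ) ^ n ∣ k → ((Vq R ℓ)^[n] r).coeff k = 0 := by
  induction n with
  | zero =>
    refine ⟨fun m => by simp, fun k hk => absurd (by simp) hk⟩
  | succ n ih =>
    rw [Function.iterate_succ_apply']
    refine ⟨fun m => ?_, fun k hk => ?_⟩
    · rw [show (ℓ : ℤ) ^ (n + 1) * m = (ℓ : ℤ) * ((ℓ : ℤ) ^ n * m) by ring, qExpand_coeff_mul]
      exact ih.1 m
    · by_cases hℓk : (ℓ : ℤ) ∣ k
      · obtain ⟨k', rfl⟩ := hℓk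
        rw [qExpand_coeff_mul]
        refine ih.2 k' fun hd => hk ?_
        rw [pow_succ, mul_comm]
        exact mul_dvd_mul_left _ hd
      · exact qExpand_coeff_of_not_dvd ℓ _ hℓk

/-- (helper for KV) the abstract form. -/
theorem eq_single_of_dilate_sub (L : ℤ) (hL : 2 ≤ L) (r s : LaurentSeries R) (c : R)
    (h1 : ∀ m : ℤ, s.coeff (L * m) = r.coeff m) (h2 : ∀ k : ℤ, ¬ L ∣ k → s.coeff k = 0)
    (h : s - r = HahnSeries.single 0 c) : r = HahnSeries.single 0 (r.coeff 0) := by
  have hsr : ∀ m : ℤ, m ≠ 0 → s.coeff m = r.coeff m := by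
    intro m hm
    have h3 := congrArg (fun x => x.coeff m) h
    simp only [HahnSeries.coeff_sub, HahnSeries.coeff_single_of_ne hm] at h3
    exact sub_eq_zero.1 h3
  -- positive indices
  have hpos : ∀ N : ℕ, ∀ m : ℤ, 0 < m → m ≤ N → r.coeff m = 0 := by
    intro N
    induction N with
    | zero => intro m h0 h1; exact absurd (by exact_mod_cast h1) (not_le.2 h0)
    | succ N ih =>
      intro m hm0 hmN
      rw [← hsr m hm0.ne']
      by_cases hd : L ∣ m
      · obtain ⟨m', rfl⟩ := hd
        rw [h1]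
        have hm' : 0 < m' := by
          by_contra hcon
          have : L * m' ≤ 0 := mul_nonpos_of_nonneg_of_nonpos (by omega) (not_lt.1 hcon)
          omega
        refine ih m' hm' ?_
        have : 2 * m' ≤ L * m' := mul_le_mul_of_nonneg_right hL hm'.le
        push_cast at hmN
        omega
      · exact h2 m hd
  -- negative indices
  have hneg : ∀ m : ℤ, m < 0 → r.coeff m = 0 := by
    intro m hm
    by_cases hr : r = 0
    · rw [hr, HahnSeries.coeff_zero]
    · by_cases ho : r.order < 0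
      · exfalso
        have h3 : L * r.order < r.order := by nlinarith
        have h4 : r.coeff (L * r.order) = 0 := HahnSeries.coeff_eq_zero_of_lt_order h3
        have h5 : L * r.order ≠ 0 := by
          have : L * r.order < 0 := lt_trans h3 ho
          exact this.ne
        rw [← hsr _ h5, h1] at h4
        exact hr (HahnSeries.coeff_order_eq_zero.1 h4)
      · exact HahnSeries.coeff_eq_zero_of_lt_order (lt_of_lt_of_le hm (not_lt.1 ho))
  ext m
  rcases lt_trichotomy m 0 with hm | hm | hm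
  · rw [hneg m hm, HahnSeries.coeff_single_of_ne hm.ne]
  · rw [hm, HahnSeries.coeff_single_same]
  · rw [hpos m.toNat m hm (Int.self_le_toNat m), HahnSeries.coeff_single_of_ne hm.ne']

/-- (KV): if `r(q^(ℓ^n)) - r(q)` is a constant (`ℓ ≥ 2`, `n ≥ 1`) then `r` is a constant.
PROOF.  `(Vq ℓ)^[n] = Vq (ℓ^n)`; put `L = ℓ^n ≥ 2`.  Claim: `r_m = 0` for all `m ≠ 0`.
`m < 0`: strong induction downwards is not available, so use the order: if some `r_m ≠ 0` with `m < 0`, let
`m₀ = r.order < 0`; the coefficient of `q^(L m₀)` in `V r - r` is `r_{m₀} - r_{L m₀} = r_{m₀}` (`L m₀ < m₀`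
is below the order), and `L m₀ ≠ 0`: contradiction.  `m > 0`: strong induction on `m`: the coefficient of
`q^m` in `V r - r` is `r_{m/L} - r_m` (or `- r_m` if `L ∤ m`), `0 < m / L < m`. -/
theorem eq_single_of_iterate_Vq_sub (ℓ : ℕ) [NeZero ℓ] (hℓ : 2 ≤ ℓ) (n : ℕ) (hn : 1 ≤ n)
    (r : LaurentSeries R) (c : R) (h : (Vq R ℓ)^[n] r - r = HahnSeries.single 0 c) :
    ∃ c' : R, r = HahnSeries.single 0 c' := by
  obtain ⟨h1, h2⟩ := iterate_Vq_coeff ℓ n r
  refine ⟨r.coeff 0, eq_single_of_dilate_sub ((ℓ : ℤ) ^ n) ?_ r _ c h1 h2 h⟩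
  have h3 : (2 : ℤ) ≤ (ℓ : ℤ) := by exact_mod_cast hℓ
  calc (2 : ℤ) ≤ (ℓ : ℤ) ^ 1 := by rwa [pow_one]
    _ ≤ (ℓ : ℤ) ^ n := pow_le_pow_right₀ (by omega) hn

end

end Fermat.Agent.S33.Calc
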